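import Mathlib
import Fermat.Agent.H5.DS.ConjGamma1

/-!
# P-DS block (1), row B1-A (second half): `ConjStatement` from `ConjGamma1Statement`

For `N ≥ 3` this is `ConjGamma1Statement` at weight `1`; for `N ≤ 2` the matrix `-1` lies in
`Γ₁(N)`, so every form of odd weight vanishes.
-/

set_option autoImplicit false

open UpperHalfPlane ModularForm CongruenceSubgroup Function
open scoped MatrixGroups ModularForm Manifold

namespace Fermat.Agent.H5.DS

open Fermat.Agent.H22 Fermat.Agent.H20.DS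

/-- `-1 ∈ Γ₁(N)` for `N ≤ 2`. -/
lemma neg_one_mem_Gamma1 (N : ℕ) (hN0 : N ≠ 0) (hN : N ≤ 2) :
    (-1 : SL(2, ℤ)) ∈ Gamma1 N := by
  rw [Gamma1_mem]
  interval_cases N
  · exact absurd rfl hN0
  · refine ⟨Subsingleton.elim _ _, Subsingleton.elim _ _, Subsingleton.elim _ _⟩
  · refine ⟨?_, ?_, ?_⟩
    · simp
    · simp
    · simp

/-- every cusp form of weight one on `Γ₁(N)`, `N ≤ 2`, vanishes -/
lemma cuspForm_weight_one_eq_zero (N : ℕ) [NeZero N] (hN : N ≤ 2) (f : CuspForm (Gamma1 N) 1) :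
    (⇑f : ℍ → ℂ) = 0 := by
  have hmem : (-1 : GL (Fin 2) ℝ) ∈ ((Gamma1 N : Subgroup SL(2, ℤ)) : Subgroup (GL (Fin 2) ℝ)) := by
    refine ⟨-1, neg_one_mem_Gamma1 N (NeZero.ne N) hN, ?_⟩
    ext i j
    simp
  have hmf : (ModularFormClass.modularForm f : ModularForm (Gamma1 N) 1) = 0 :=
    ModularForm.eq_zero_of_neg_one_mem hmem odd_one _
  have := congrArg (fun F : ModularForm (Gamma1 N) 1 => (⇑F : ℍ → ℂ)) hmf
  simpa using this

/-- **DS-1a** from Theorem A for `Γ₁(N)`. -/
theorem conjStatement_of_conjGamma1 (h : ConjGamma1Statement) : ConjStatement := by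
  intro N _ f σ
  by_cases hN : 3 ≤ N
  · obtain ⟨g, hg⟩ := h N hN 1 σ f
    refine ⟨g, fun n => ?_⟩
    unfold ModularFormClass.qCoeff
    rw [hg, PowerSeries.coeff_map]
  · have hf : (⇑f : ℍ → ℂ) = 0 := cuspForm_weight_one_eq_zero N (by omega) f
    refine ⟨0, fun n => ?_⟩
    unfold ModularFormClass.qCoeff
    rw [hf]
    have h0 : (⇑(0 : CuspForm (Gamma1 N) 1) : ℍ → ℂ) = 0 := rfl
    rw [h0, qExpansion_zero]
    simp

/-- **DS-1a** from the four inputs of block (1). -/
theorem conjStatement (hSep : SepOneStatement) (hInterp : RelInterpStatement)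
    (hChar : RelCharpolyStatement) (hDiv : DivisionOneStatement) : ConjStatement :=
  conjStatement_of_conjGamma1 (conjGamma1 hSep hInterp hChar hDiv)

end Fermat.Agent.H5.DS
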